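import Mathlib
import Fermat.Agent.Lib.Frob.Wiring

/-!
# CFT project: shared interface statements

`RecipStatement p` is the reciprocity statement (interface (I3) of the CFT project) for an
everywhere unramified cyclic extension `L / K` of degree `p` of `K = ℚ(ζ_p)` with `L / ℚ` Galois:
if a product of degree-one primes of `K` over one rational prime `q ≠ p` is a principal ideal,
then the product of the corresponding Frobenius elements is killed by every character of
`Gal(L/K)`.
-/

set_option autoImplicit false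

open NumberField

namespace Fermat.Agent.CFT

/-- Interface (I3): reciprocity for unramified cyclic degree `p` extensions of `ℚ(ζ_p)`. -/
def RecipStatement (p : ℕ) [Fact p.Prime] : Prop :=
  ∀ (K L : Type) [Field K] [NumberField K] [Field L] [NumberField L] [Algebra K L] [IsGalois K L]
    [IsCyclotomicExtension {p} ℚ K] [IsGalois ℚ L] (_hdeg : Module.finrank K L = p)
    (_hunr : ∀ P : Ideal (𝓞 L), P.IsPrime → P ≠ ⊥ → P.inertia Gal(L/K) = ⊥)
    (q : ℕ) (_hq : q.Prime) (_hqp : q ≠ p)
    {ι : Type} [Fintype ι] (𝔯 : ι → Ideal (𝓞 K)) (_h𝔯 : ∀ i, (𝔯 i).IsPrime)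
    (_hN : ∀ i, Ideal.absNorm (𝔯 i) = q)
    (γ : 𝓞 K) (_hγ : ∏ i, 𝔯 i = Ideal.span {γ})
    (φ : ι → Gal(L/K))
    (_hφ : ∀ i, ∃ P : Ideal (𝓞 L), P.IsPrime ∧ P.under (𝓞 K) = 𝔯 i ∧ IsArithFrobAt (𝓞 K) (φ i) P)
    (β : Gal(L/K) →* Multiplicative (ZMod p)), ∏ i, β (φ i) = 1

end Fermat.Agent.CFT
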