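import Fermat.Statements.S14
import Fermat.Agent.CFT.Red.Main
import Fermat.Agent.CFT.Core.Main
import Fermat.Agent.Lib.Frob.GeneratesWiring

/-!
# CFT project: assembly of S14 from the reciprocity statement

`extVanishingCts_of_recip`: the reciprocity statement `RecipStatement p` (interface (I3)) implies
the vanishing of the continuous admissible extension classes (`ExtCitation.ExtVanishingCts p`,
statement S14) for every odd prime `p`.  Inputs: the Galois-side reduction (`Red`), the Frobenius
density theorem in existence form (`Lib.Frob`), Stickelberger for degree-one primes (`Stick`) and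
the core contradiction (`Core`).
-/

set_option autoImplicit false

open ExtCitation

namespace Fermat.Agent.CFT

/-- S14 from the reciprocity statement. -/
theorem extVanishingCts_of_recip {p : ℕ} [Fact p.Prime] (h3 : 3 ≤ p) (hR : RecipStatement p) :
    ExtCitation.ExtVanishingCts p := by
  intro V _ _ _ _ C hadm
  by_contra hns
  obtain ⟨L, hfd, hgal, ζ, χ, b, hζ, hχ, hbm, hbc, hinj, hne, hunr⟩ :=
    Red.exists_field_of_not_splits h3 V C hadm hns
  have : NumberField L := ⟨⟩
  have hp2 : p ≠ 2 := by omega
  exact Core.core_false hp2 Fermat.Agent.Lib.Frob.primeArithFrobGenerates hR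
    L ζ hζ χ b hχ hbm hbc hinj hne hunr

end Fermat.Agent.CFT
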